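import Mathlib

/-!
# S25, block CURVE, leaf C1 (algebra core) — helper627

`B` a standard smooth algebra of relative dimension one over an algebraically closed field `k`,
`B` a domain.  Then `B` is a Dedekind domain, not a field; its localizations at maximal ideals
are discrete valuation rings; all its localizations at primes are valuation rings; proper closed
subsets of its spectrum are finite.

Method: Jacobian criterion (`Algebra.FormallySmooth.iff_injective_cotangentComplexBaseChange`)
applied to `B → B ⧸ m` gives `dim (m / m²) ≤ rank Ω[B⁄k] = 1`; Nakayama; DVR TFAE.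
-/

set_option autoImplicit false
set_option linter.style.haveILetI false

open TensorProduct

namespace Fermat.Agent.S25.H627

/-- Every element of `(R ⧸ I) ⊗[R] M` is of the form `1 ⊗ x`. -/
theorem exists_one_tmul_eq {R M : Type*} [CommRing R] [AddCommGroup M] [Module R M]
    (I : Ideal R) (v : (R ⧸ I) ⊗[R] M) : ∃ x : M, (1 : R ⧸ I) ⊗ₜ[R] x = v := by
  induction v using TensorProduct.induction_on with
  | zero => exact ⟨0, by simp⟩
  | tmul a x =>
    obtain ⟨r, rfl⟩ := Ideal.Quotient.mk_surjective a
    refine ⟨r • x, ?_⟩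
    rw [TensorProduct.tmul_smul, TensorProduct.smul_tmul', ← Ideal.Quotient.algebraMap_eq,
      Algebra.smul_def, mul_one]
  | add a b ha hb =>
    obtain ⟨x, rfl⟩ := ha
    obtain ⟨y, rfl⟩ := hb
    exact ⟨x + y, TensorProduct.tmul_add _ _ _⟩

/-- `1 ⊗ x = 0` in `(R ⧸ I) ⊗[R] M` iff `x ∈ I • ⊤`. -/
theorem one_tmul_eq_zero_iff {R M : Type*} [CommRing R] [AddCommGroup M] [Module R M]
    (I : Ideal R) (x : M) : (1 : R ⧸ I) ⊗ₜ[R] x = 0 ↔ x ∈ (I • ⊤ : Submodule R M) := by
  rw [← Submodule.Quotient.mk_eq_zero, ← (quotTensorEquivQuotSMul M I).map_eq_zero_iff]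
  have := quotTensorEquivQuotSMul_mk_tmul I (1 : R) x
  rw [map_one, one_smul] at this
  rw [this]

/-- Cotangent bound at a maximal ideal of a standard smooth curve algebra: `m = (t) + m²`. -/
theorem exists_mem_le_span_sup_sq (k : Type*) {B : Type*} [Field k] [IsAlgClosed k] [CommRing B]
    [Algebra k B] [Algebra.IsStandardSmoothOfRelativeDimension 1 k B]
    (m : Ideal B) [hm : m.IsMaximal] :
    ∃ t ∈ m, m ≤ Ideal.span {t} ⊔ m ^ 2 := by
  classical
  letI : Field (B ⧸ m) := Ideal.Quotient.field m
  haveI : Algebra.IsStandardSmooth k B :=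
    Algebra.IsStandardSmoothOfRelativeDimension.isStandardSmooth 1
  haveI : Nontrivial B :=
    ⟨⟨0, 1, fun h => hm.ne_top ((Ideal.eq_top_iff_one m).mpr (h ▸ m.zero_mem))⟩⟩
  haveI : IsNoetherianRing B := Algebra.FiniteType.isNoetherianRing k B
  haveI : Algebra.FormallySmooth k (B ⧸ m) := inferInstance
  have hinj := (Algebra.FormallySmooth.iff_injective_cotangentComplexBaseChange
    (R := k) (S := B ⧸ m) B (B ⧸ m) Ideal.Quotient.mk_surjective
    (IsNoetherian.noetherian _) (by rw [IsLocalRing.maximalIdeal_eq_bot]; exact bot_le)).mp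
    inferInstance
  -- dimension count
  have hrank : Module.finrank (B ⧸ m) ((B ⧸ m) ⊗[B] Ω[B⁄k]) = 1 := by
    rw [Module.finrank_baseChange]
    have := Algebra.IsStandardSmoothOfRelativeDimension.rank_kaehlerDifferential
      (R := k) (S := B) 1
    exact Module.finrank_eq_of_rank_eq (by simpa using this)
  haveI : Module.Finite (B ⧸ m) ((B ⧸ m) ⊗[B] Ω[B⁄k]) := inferInstance
  have hle := LinearMap.finrank_le_finrank_of_injective hinj
  rw [hrank] at hle
  generalize hJ : RingHom.ker (algebraMap B (B ⧸ m)) = J at hle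
  have hJm : J = m := hJ ▸ Ideal.mk_ker
  subst hJm
  haveI : Module.Finite (B ⧸ J) ((B ⧸ J) ⊗[B] J) := inferInstance
  obtain ⟨v, hv⟩ := finrank_le_one_iff.mp hle
  obtain ⟨t, rfl⟩ := exists_one_tmul_eq J v
  refine ⟨(t : B), t.2, fun x hx => ?_⟩
  obtain ⟨c, hc⟩ := hv ((1 : B ⧸ J) ⊗ₜ[B] (⟨x, hx⟩ : J))
  obtain ⟨b, rfl⟩ := Ideal.Quotient.mk_surjective c
  have h0 : (1 : B ⧸ J) ⊗ₜ[B] ((⟨x, hx⟩ : J) - b • t) = 0 := by
    rw [TensorProduct.tmul_sub, ← hc, TensorProduct.tmul_smul, ← Ideal.Quotient.algebraMap_eq,
      algebraMap_smul, sub_self]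
  rw [one_tmul_eq_zero_iff] at h0
  have h1 : (((⟨x, hx⟩ : J) - b • t : J) : B) ∈ J ^ 2 := by
    have := Submodule.mem_map_of_mem (f := J.subtype) h0
    rw [Submodule.map_smul'', Submodule.map_top, Submodule.range_subtype] at this
    simpa [pow_two] using this
  have hx_eq : x = b * (t : B) + (x - b * (t : B)) := by ring
  rw [hx_eq]
  refine Ideal.add_mem _ (Ideal.mem_sup_left ?_) (Ideal.mem_sup_right ?_)
  · exact Ideal.mul_mem_left _ _ (Ideal.subset_span rfl)
  · simpa using h1

/-- A standard smooth algebra of relative dimension one over an algebraically closed field is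
not a field. -/
theorem not_isField_of_standardSmooth (k : Type*) {B : Type*} [Field k] [IsAlgClosed k]
    [CommRing B] [Algebra k B] [Algebra.IsStandardSmoothOfRelativeDimension 1 k B] :
    ¬ IsField B := by
  intro hB
  letI : Field B := hB.toField
  haveI : Algebra.IsStandardSmooth k B :=
    Algebra.IsStandardSmoothOfRelativeDimension.isStandardSmooth 1
  haveI : Module.Finite k B := finite_of_finite_type_of_isJacobsonRing k B
  have hbij : Function.Bijective (algebraMap k B) :=
    IsAlgClosed.algebraMap_bijective_of_isIntegral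
  haveI := KaehlerDifferential.subsingleton_of_surjective k B hbij.2
  have h1 := Algebra.IsStandardSmoothOfRelativeDimension.rank_kaehlerDifferential
    (R := k) (S := B) 1
  rw [rank_subsingleton'] at h1
  simp at h1

/-- The localization of a standard smooth curve algebra (a domain) at a maximal ideal is a
discrete valuation ring. -/
theorem isDiscreteValuationRing_of_isMaximal (k : Type*) {B : Type*} [Field k] [IsAlgClosed k]
    [CommRing B] [IsDomain B] [Algebra k B] [Algebra.IsStandardSmoothOfRelativeDimension 1 k B]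
    (m : Ideal B) [hm : m.IsMaximal] (S : Type*) [CommRing S] [IsDomain S] [Algebra B S]
    [IsLocalization.AtPrime S m] : IsDiscreteValuationRing S := by
  haveI : Algebra.IsStandardSmooth k B :=
    Algebra.IsStandardSmoothOfRelativeDimension.isStandardSmooth 1
  haveI : IsNoetherianRing B := Algebra.FiniteType.isNoetherianRing k B
  haveI : IsLocalRing S := IsLocalization.AtPrime.isLocalRing S m
  haveI : IsNoetherianRing S := IsLocalization.isNoetherianRing m.primeCompl S inferInstance
  have hm0 : m ≠ ⊥ :=
    Ring.ne_bot_of_isMaximal_of_not_isField hm (not_isField_of_standardSmooth k)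
  have hnf : ¬ IsField S := IsLocalization.AtPrime.not_isField B hm0 S
  obtain ⟨t, ht, hle⟩ := exists_mem_le_span_sup_sq k m
  have hM : Ideal.map (algebraMap B S) m = IsLocalRing.maximalIdeal S :=
    IsLocalization.AtPrime.map_eq_maximalIdeal m S
  have hle' : IsLocalRing.maximalIdeal S ≤
      Ideal.span {algebraMap B S t} ⊔
        IsLocalRing.maximalIdeal S • IsLocalRing.maximalIdeal S := by
    have := Ideal.map_mono (f := algebraMap B S) hle
    rw [Ideal.map_sup, Ideal.map_span, Ideal.map_pow, hM, Set.image_singleton, pow_two] at this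
    exact this
  have hprin : IsLocalRing.maximalIdeal S ≤ Ideal.span {algebraMap B S t} :=
    Submodule.le_of_le_smul_of_le_jacobson_bot (IsNoetherian.noetherian _)
      (IsLocalRing.maximalIdeal_le_jacobson _) hle'
  have heq : IsLocalRing.maximalIdeal S = Ideal.span {algebraMap B S t} := by
    refine le_antisymm hprin ?_
    rw [Ideal.span_singleton_le_iff_mem, ← hM]
    exact Ideal.mem_map_of_mem _ ht
  have hP : (IsLocalRing.maximalIdeal S).IsPrincipal := ⟨⟨_, heq⟩⟩
  exact ((IsDiscreteValuationRing.TFAE S hnf).out 0 4).mpr hP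

/-- In a domain whose localizations at all maximal ideals are DVRs, every nonzero prime is
maximal. -/
theorem isMaximal_of_forall_isMaximal_dvr {A : Type*} [CommRing A] [IsDomain A]
    (h : ∀ (m : Ideal A) [m.IsMaximal], IsDiscreteValuationRing (Localization.AtPrime m))
    (p : Ideal A) (hp : p ≠ ⊥) [hpp : p.IsPrime] : p.IsMaximal := by
  rcases p.exists_le_maximal (Ideal.IsPrime.ne_top hpp) with ⟨q, hq, hpq⟩
  haveI := hq
  let f := (IsLocalization.orderIsoOfPrime q.primeCompl (Localization.AtPrime q)).symm
  let P := f ⟨p, hpp, hpq.disjoint_compl_left⟩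
  let Q := f ⟨q, hq.isPrime, Set.disjoint_left.mpr fun _ a => a⟩
  have hinj : Function.Injective (algebraMap A (Localization.AtPrime q)) :=
    IsLocalization.injective (Localization.AtPrime q) q.primeCompl_le_nonZeroDivisors
  have hp1 : P.1 ≠ ⊥ := fun x => hp ((p.map_eq_bot_iff_of_injective hinj).mp x)
  have hq1 : Q.1 ≠ ⊥ :=
    fun x => (ne_bot_of_le_ne_bot hp hpq) ((q.map_eq_bot_iff_of_injective hinj).mp x)
  rcases (IsDiscreteValuationRing.iff_pid_with_one_nonzero_prime (Localization.AtPrime q)).mp
    (h q) with ⟨_, huq⟩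
  rw [show p = q from Subtype.val_inj.mpr <| f.injective <|
    Subtype.val_inj.mp (huq.unique ⟨hp1, P.2⟩ ⟨hq1, Q.2⟩)]
  exact hq

/-- A noetherian domain whose localizations at all maximal ideals are DVRs is Dedekind. -/
theorem isDedekindDomain_of_forall_isMaximal_dvr {A : Type*} [CommRing A] [IsDomain A]
    [IsNoetherianRing A]
    (h : ∀ (m : Ideal A) [m.IsMaximal], IsDiscreteValuationRing (Localization.AtPrime m)) :
    IsDedekindDomain A := by
  haveI : IsDedekindDomainDvr A :=
    { is_dvr_at_nonzero_prime := fun P hP hPp => by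
        haveI := hPp
        haveI := isMaximal_of_forall_isMaximal_dvr h P hP
        exact h P }
  infer_instance

/-- **C1a.** A standard smooth algebra of relative dimension one over an algebraically closed
field which is a domain is a Dedekind domain. -/
theorem isDedekindDomain_of_standardSmooth (k : Type*) {B : Type*} [Field k] [IsAlgClosed k]
    [CommRing B] [IsDomain B] [Algebra k B] [Algebra.IsStandardSmoothOfRelativeDimension 1 k B] :
    IsDedekindDomain B := by
  haveI : Algebra.IsStandardSmooth k B :=
    Algebra.IsStandardSmoothOfRelativeDimension.isStandardSmooth 1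
  haveI : IsNoetherianRing B := Algebra.FiniteType.isNoetherianRing k B
  exact isDedekindDomain_of_forall_isMaximal_dvr fun m _ =>
    isDiscreteValuationRing_of_isMaximal k m _

/-- Localizations of a Dedekind domain at primes are valuation rings (fields at `⊥`, DVRs
otherwise). -/
theorem valuationRing_of_isDedekindDomain_of_isLocalization {A : Type*} [CommRing A]
    [IsDedekindDomain A] (p : Ideal A) [p.IsPrime] (S : Type*) [CommRing S]
    [IsDomain S] [Algebra A S] [IsLocalization.AtPrime S p] : ValuationRing S := by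
  by_cases hp : p = ⊥
  · -- `S` is the fraction field
    subst hp
    haveI : IsFractionRing A S := by
      have : (⊥ : Ideal A).primeCompl = nonZeroDivisors A := by
        ext x
        simp [Ideal.primeCompl, mem_nonZeroDivisors_iff_ne_zero]
      unfold IsFractionRing
      rw [← this]
      infer_instance
    letI : Field S := IsFractionRing.toField A
    infer_instance
  · haveI := IsLocalization.AtPrime.isDiscreteValuationRing_of_dedekind_domain A hp S
    infer_instance

/-- In a Dedekind domain, the set of primes containing a nonzero ideal is finite. -/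
theorem finite_zeroLocus_of_ne_bot {A : Type*} [CommRing A] [IsDedekindDomain A]
    (I : Ideal A) (hI : I ≠ ⊥) : (PrimeSpectrum.zeroLocus (I : Set A)).Finite := by
  have hfin := Ideal.finite_minimalPrimes_of_isNoetherianRing A I
  have hsub : PrimeSpectrum.zeroLocus (I : Set A) ⊆
      PrimeSpectrum.asIdeal ⁻¹' I.minimalPrimes := by
    intro P hP
    rw [PrimeSpectrum.mem_zeroLocus] at hP
    obtain ⟨q, hq, hqP⟩ := Ideal.exists_minimalPrimes_le (I := I) (J := P.asIdeal) hP
    have hq0 : q ≠ ⊥ := fun h => hI (le_bot_iff.mp (h ▸ hq.1.2))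
    haveI := hq.1.1
    have hqmax : q.IsMaximal := Ring.DimensionLEOne.maximalOfPrime hq0 hq.1.1
    have : q = P.asIdeal := hqmax.eq_of_le P.isPrime.ne_top hqP
    simpa [← this] using hq
  have hinj : Function.Injective (PrimeSpectrum.asIdeal (R := A)) :=
    fun _ _ h => PrimeSpectrum.ext h
  exact (hfin.preimage hinj.injOn).subset hsub

end Fermat.Agent.S25.H627
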