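import Mathlib
import Fermat.Agent.S25.H627.CurveAlg

/-!
# S25, block CURVE, leaf C1 (scheme level, part A) — helper627

For `c : C ⟶ Spec k` smooth of relative dimension one, `C` integral, `k` algebraically closed:
standard smooth / Dedekind charts, all stalks are valuation rings, stalks at closed points are
discrete valuation rings, `C` is Jacobson and locally noetherian.
-/

set_option autoImplicit false
set_option linter.style.haveILetI false

open AlgebraicGeometry CategoryTheory

universe u

namespace Fermat.Agent.S25.H627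

/-- Every open of `Spec k` containing a point is `⊤`. -/
theorem opens_spec_field_eq_top (k : Type u) [Field k] (U : (Spec (CommRingCat.of k)).Opens)
    (y : Spec (CommRingCat.of k)) (hy : y ∈ U) : U = ⊤ := by
  ext z
  simp only [TopologicalSpace.Opens.coe_top, Set.mem_univ, iff_true, SetLike.mem_coe]
  have : z = y := Subsingleton.elim (α := PrimeSpectrum k) z y
  rw [this]
  exact hy

/-- Standard smooth chart with `k`-algebra structure. -/
theorem exists_standardSmooth_chart (k : Type u) [Field k] {C : Scheme.{u}}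
    (c : C ⟶ Spec (CommRingCat.of k)) [SmoothOfRelativeDimension 1 c] (x : C) :
    ∃ (V : C.Opens) (_ : IsAffineOpen V) (_ : x ∈ V) (φ : k →+* Γ(C, V)),
      RingHom.IsStandardSmoothOfRelativeDimension 1 φ := by
  obtain ⟨U, hU, V, hV, hx, e, hstd⟩ :=
    SmoothOfRelativeDimension.exists_isStandardSmoothOfRelativeDimension (n := 1) (f := c) x
  have hUtop : U = ⊤ := opens_spec_field_eq_top k U (c x) (e hx)
  subst hUtop
  let ψ : k ≃+* Γ(Spec (CommRingCat.of k), ⊤) :=
    (Scheme.ΓSpecIso (CommRingCat.of k)).symm.commRingCatIsoToRingEquiv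
  refine ⟨V, hV, hx, (c.appLE ⊤ V e).hom.comp ψ.toRingHom, ?_⟩
  exact RingHom.isStandardSmoothOfRelativeDimension_respectsIso.2 _ ψ hstd

/-- Every point has an affine open neighbourhood whose coordinate ring is a Dedekind domain
which is not a field. -/
theorem exists_dedekind_chart (k : Type u) [Field k] [IsAlgClosed k] {C : Scheme.{u}}
    (c : C ⟶ Spec (CommRingCat.of k)) [SmoothOfRelativeDimension 1 c] [IsIntegral C] (x : C) :
    ∃ (V : C.Opens) (_ : IsAffineOpen V) (_ : x ∈ V),
      IsDedekindDomain Γ(C, V) ∧ ¬ IsField Γ(C, V) := by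
  obtain ⟨V, hV, hx, φ, hstd⟩ := exists_standardSmooth_chart k c x
  letI := φ.toAlgebra
  haveI : Algebra.IsStandardSmoothOfRelativeDimension 1 k Γ(C, V) := hstd
  haveI : Nonempty V := ⟨⟨x, hx⟩⟩
  exact ⟨V, hV, hx, isDedekindDomain_of_standardSmooth k, not_isField_of_standardSmooth k⟩

/-- **C1(c).** All stalks of `C` are valuation rings. -/
theorem valuationRing_stalk (k : Type u) [Field k] [IsAlgClosed k] {C : Scheme.{u}}
    (c : C ⟶ Spec (CommRingCat.of k)) [SmoothOfRelativeDimension 1 c] [IsIntegral C] (x : C) :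
    ValuationRing (C.presheaf.stalk x) := by
  obtain ⟨V, hV, hx, hD, -⟩ := exists_dedekind_chart k c x
  haveI := hD
  letI : Algebra Γ(C, V) (C.presheaf.stalk x) :=
    TopCat.Presheaf.algebra_section_stalk C.presheaf ⟨x, hx⟩
  haveI : IsLocalization.AtPrime (C.presheaf.stalk x) (hV.primeIdealOf ⟨x, hx⟩).asIdeal :=
    hV.isLocalization_stalk ⟨x, hx⟩
  exact valuationRing_of_isDedekindDomain_of_isLocalization
    (hV.primeIdealOf ⟨x, hx⟩).asIdeal (C.presheaf.stalk x)

/-- **C1(c).** The stalk at a closed point is a discrete valuation ring. -/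
theorem isDiscreteValuationRing_stalk_of_isClosed (k : Type u) [Field k] [IsAlgClosed k]
    {C : Scheme.{u}} (c : C ⟶ Spec (CommRingCat.of k)) [SmoothOfRelativeDimension 1 c]
    [IsIntegral C] (x : C) (hxc : IsClosed ({x} : Set C)) :
    IsDiscreteValuationRing (C.presheaf.stalk x) := by
  obtain ⟨V, hV, hx, φ, hstd⟩ := exists_standardSmooth_chart k c x
  letI := φ.toAlgebra
  haveI : Algebra.IsStandardSmoothOfRelativeDimension 1 k Γ(C, V) := hstd
  haveI : Nonempty V := ⟨⟨x, hx⟩⟩
  letI : Algebra Γ(C, V) (C.presheaf.stalk x) :=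
    TopCat.Presheaf.algebra_section_stalk C.presheaf ⟨x, hx⟩
  haveI : IsLocalization.AtPrime (C.presheaf.stalk x) (hV.primeIdealOf ⟨x, hx⟩).asIdeal :=
    hV.isLocalization_stalk ⟨x, hx⟩
  haveI : (hV.primeIdealOf ⟨x, hx⟩).asIdeal.IsMaximal :=
    hV.primeIdealOf_isMaximal_of_isClosed ⟨x, hx⟩ hxc
  exact isDiscreteValuationRing_of_isMaximal k (hV.primeIdealOf ⟨x, hx⟩).asIdeal _

/-- `C` is a Jacobson space. -/
theorem jacobsonSpace_curve (k : Type u) [Field k] {C : Scheme.{u}}
    (c : C ⟶ Spec (CommRingCat.of k)) [LocallyOfFiniteType c] : JacobsonSpace C :=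
  LocallyOfFiniteType.jacobsonSpace c

/-- `C` is locally noetherian. -/
theorem isLocallyNoetherian_curve (k : Type u) [Field k] [IsAlgClosed k] {C : Scheme.{u}}
    (c : C ⟶ Spec (CommRingCat.of k)) [SmoothOfRelativeDimension 1 c] [IsIntegral C] :
    IsLocallyNoetherian C := by
  choose V hV hx hD _ using exists_dedekind_chart k c
  refine isLocallyNoetherian_of_affine_cover (S := fun x : C => ⟨V x, hV x⟩) ?_ ?_
  · rw [eq_top_iff]
    intro x _
    exact TopologicalSpace.Opens.mem_iSup.mpr ⟨x, hx x⟩
  · intro x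
    haveI := hD x
    infer_instance

end Fermat.Agent.S25.H627
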