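import Mathlib
import Fermat.Agent.S25.H627.CurveAlg
import Fermat.Agent.S25.H627.CurveSchemeA

/-!
# S25, block CURVE, leaf C1 (scheme level, part B) — helper627

For `c : C ⟶ Spec k` smooth of relative dimension one, `C` integral, `k` algebraically closed:
* `not_isField_of_isAffineOpen`, `isDedekindDomain_of_isAffineOpen`: the coordinate ring of every
  nonempty affine open is a Dedekind domain which is not a field;
* `finite_of_isClosed_of_ne_univ`: proper closed subsets are finite (`C` quasi-compact);
* `curve_C1`: summary under the exact hypotheses of S25.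
-/

set_option autoImplicit false
set_option linter.style.haveILetI false

open AlgebraicGeometry CategoryTheory

universe u

namespace Fermat.Agent.S25.H627


/-- A point of an affine open `U` which corresponds to a maximal ideal of `Γ(C, U)` is a closed
point of `C` (for `C` locally of finite type over a field). -/
theorem isClosed_singleton_fromSpec_of_isMaximal (k : Type u) [Field k] {C : Scheme.{u}}
    (c : C ⟶ Spec (CommRingCat.of k)) [LocallyOfFiniteType c] {U : C.Opens}
    (hU : IsAffineOpen U) (y : PrimeSpectrum Γ(C, U)) (hy : y.asIdeal.IsMaximal) :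
    IsClosed ({hU.fromSpec y} : Set C) := by
  haveI : JacobsonSpace C := LocallyOfFiniteType.jacobsonSpace c
  apply isClosed_singleton_of_isLocallyClosed_singleton
  have hcl : IsClosed ({y} : Set (PrimeSpectrum Γ(C, U))) :=
    (PrimeSpectrum.isClosed_singleton_iff_isMaximal y).mpr hy
  haveI := hU.isOpenImmersion_fromSpec
  have hemb := hU.fromSpec.isOpenEmbedding
  have := hcl.isLocallyClosed.image hemb.isInducing hemb.isOpen_range.isLocallyClosed
  have h2 : (hU.fromSpec '' ({y} : Set (PrimeSpectrum Γ(C, U)))) = {hU.fromSpec y} :=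
    Set.image_singleton
  exact h2 ▸ this

/-- **C1(b).** The coordinate ring of a nonempty affine open of `C` is not a field. -/
theorem not_isField_of_isAffineOpen (k : Type u) [Field k] [IsAlgClosed k] {C : Scheme.{u}}
    (c : C ⟶ Spec (CommRingCat.of k)) [SmoothOfRelativeDimension 1 c] [IsIntegral C]
    {U : C.Opens} (hU : IsAffineOpen U) (hne : (U : Set C).Nonempty) :
    ¬ IsField Γ(C, U) := by
  haveI : Smooth c := SmoothOfRelativeDimension.smooth 1 c
  haveI : JacobsonSpace C := LocallyOfFiniteType.jacobsonSpace c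
  obtain ⟨x, hxU, hxc⟩ := nonempty_inter_closedPoints hne U.isOpen.isLocallyClosed
  haveI := isDiscreteValuationRing_stalk_of_isClosed k c x hxc
  intro hF
  letI : Algebra Γ(C, U) (C.presheaf.stalk x) :=
    TopCat.Presheaf.algebra_section_stalk C.presheaf ⟨x, hxU⟩
  haveI : IsLocalization.AtPrime (C.presheaf.stalk x) (hU.primeIdealOf ⟨x, hxU⟩).asIdeal :=
    hU.isLocalization_stalk ⟨x, hxU⟩
  have hbij : Function.Bijective (algebraMap Γ(C, U) (C.presheaf.stalk x)) :=
    IsField.localization_map_bijective (M := (hU.primeIdealOf ⟨x, hxU⟩).asIdeal.primeCompl)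
      (fun h => h (Ideal.zero_mem _)) hF
  have hF' : IsField (C.presheaf.stalk x) :=
    (RingEquiv.ofBijective _ hbij).symm.toMulEquiv.isField hF
  exact IsDiscreteValuationRing.not_isField _ hF'

/-- **C1(b).** The coordinate ring of a nonempty affine open of `C` is a Dedekind domain. -/
theorem isDedekindDomain_of_isAffineOpen (k : Type u) [Field k] [IsAlgClosed k]
    {C : Scheme.{u}} (c : C ⟶ Spec (CommRingCat.of k)) [SmoothOfRelativeDimension 1 c]
    [IsIntegral C] {U : C.Opens} (hU : IsAffineOpen U) (hne : (U : Set C).Nonempty) :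
    IsDedekindDomain Γ(C, U) := by
  haveI : Smooth c := SmoothOfRelativeDimension.smooth 1 c
  haveI : IsLocallyNoetherian C := isLocallyNoetherian_curve k c
  haveI : IsNoetherianRing Γ(C, U) := IsLocallyNoetherian.component_noetherian ⟨U, hU⟩
  haveI : Nonempty U := ⟨⟨hne.some, hne.some_mem⟩⟩
  refine isDedekindDomain_of_forall_isMaximal_dvr fun m hm => ?_
  let y : PrimeSpectrum Γ(C, U) := ⟨m, hm.isPrime⟩
  have hyU : hU.fromSpec y ∈ U := by
    rw [← SetLike.mem_coe, ← hU.range_fromSpec]
    exact Set.mem_range_self y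
  have hcl := isClosed_singleton_fromSpec_of_isMaximal k c hU y hm
  haveI := isDiscreteValuationRing_stalk_of_isClosed k c _ hcl
  letI : Algebra Γ(C, U) (C.presheaf.stalk (hU.fromSpec y)) :=
    TopCat.Presheaf.algebra_section_stalk C.presheaf ⟨hU.fromSpec y, hyU⟩
  haveI : IsLocalization.AtPrime (C.presheaf.stalk (hU.fromSpec y)) m :=
    hU.isLocalization_stalk' y hyU
  exact IsDiscreteValuationRing.RingEquivClass.isDiscreteValuationRing
    (IsLocalization.algEquiv m.primeCompl (C.presheaf.stalk (hU.fromSpec y))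
      (Localization.AtPrime m))



/-- In an integral scheme, a closed subset containing a nonempty open is everything; hence the
trace of a proper closed subset on an affine open with Dedekind coordinate ring is finite. -/
theorem finite_inter_of_isDedekindDomain {C : Scheme.{u}} [IsIntegral C] {V : C.Opens}
    (hV : IsAffineOpen V) (hVne : (V : Set C).Nonempty) [IsDedekindDomain Γ(C, V)]
    (Z : Set C) (hZ : IsClosed Z) (hne : Z ≠ Set.univ) : (Z ∩ (V : Set C)).Finite := by
  haveI := hV.isOpenImmersion_fromSpec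
  have hcont : Continuous hV.fromSpec := hV.fromSpec.continuous
  have hcl : IsClosed (hV.fromSpec ⁻¹' Z : Set (PrimeSpectrum Γ(C, V))) := hZ.preimage hcont
  obtain ⟨I, hI⟩ := (PrimeSpectrum.isClosed_iff_zeroLocus_ideal _).mp hcl
  have hI0 : I ≠ ⊥ := by
    rintro rfl
    apply hne
    have hsub : (V : Set C) ⊆ Z := by
      rw [← hV.range_fromSpec]
      rintro _ ⟨y, rfl⟩
      have : y ∈ (hV.fromSpec ⁻¹' Z : Set (PrimeSpectrum Γ(C, V))) := by
        rw [hI]
        exact (PrimeSpectrum.mem_zeroLocus _ _).mpr (fun a ha => by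
          rw [SetLike.mem_coe, Ideal.mem_bot] at ha
          rw [ha]
          exact Ideal.zero_mem _)
      exact this
    have hdense : Dense (V : Set C) := V.isOpen.dense hVne
    exact Set.eq_univ_of_univ_subset
      (hdense.closure_eq ▸ (closure_minimal hsub hZ))
  have hfin := finite_zeroLocus_of_ne_bot I hI0
  rw [← hI] at hfin
  have h3 := hfin.image hV.fromSpec
  have e1 : hV.fromSpec '' (hV.fromSpec ⁻¹' Z) = Z ∩ Set.range hV.fromSpec :=
    Set.image_preimage_eq_inter_range
  have e2 : Set.range hV.fromSpec = (V : Set C) := hV.range_fromSpec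
  rw [← e2, ← e1]
  exact h3

/-- **C1(d).** Proper closed subsets of `C` are finite. -/
theorem finite_of_isClosed_of_ne_univ (k : Type u) [Field k] [IsAlgClosed k] {C : Scheme.{u}}
    (c : C ⟶ Spec (CommRingCat.of k)) [SmoothOfRelativeDimension 1 c] [IsIntegral C]
    [CompactSpace C] (Z : Set C) (hZ : IsClosed Z) (hne : Z ≠ Set.univ) : Z.Finite := by
  choose V hV hx hD _ using exists_dedekind_chart k c
  obtain ⟨t, ht⟩ := isCompact_univ.elim_finite_subcover (fun x : C => (V x : Set C))
    (fun x => (V x).isOpen) (fun x _ => Set.mem_iUnion.mpr ⟨x, hx x⟩)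
  have hcover : Z ⊆ ⋃ x ∈ t, Z ∩ (V x : Set C) := by
    intro z hz
    obtain ⟨x, hxt, hzx⟩ := Set.mem_iUnion₂.mp (ht (Set.mem_univ z))
    exact Set.mem_iUnion₂.mpr ⟨x, hxt, hz, hzx⟩
  refine Set.Finite.subset (Set.Finite.biUnion t.finite_toSet fun x _ => ?_) hcover
  haveI := hD x
  exact finite_inter_of_isDedekindDomain (hV x) ⟨x, hx x⟩ Z hZ hne


/-- **C1, summary** under the hypotheses of S25. -/
theorem curve_C1 (k : Type u) [Field k] [IsAlgClosed k] {C : Scheme.{u}}
    (c : C ⟶ Spec (CommRingCat.of k)) [IsProper c] [SmoothOfRelativeDimension 1 c]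
    [IsIntegral C] :
    CompactSpace C ∧ IsLocallyNoetherian C ∧ JacobsonSpace C ∧
      (∀ x : C, ValuationRing (C.presheaf.stalk x)) ∧
      (∀ x : C, IsClosed ({x} : Set C) → IsDiscreteValuationRing (C.presheaf.stalk x)) ∧
      (∀ Z : Set C, IsClosed Z → Z ≠ Set.univ → Z.Finite) ∧
      (∀ (U : C.Opens), IsAffineOpen U → (U : Set C).Nonempty →
        IsDedekindDomain Γ(C, U) ∧ ¬ IsField Γ(C, U)) := by
  haveI : Smooth c := SmoothOfRelativeDimension.smooth 1 c
  haveI : CompactSpace C := QuasiCompact.compactSpace_of_compactSpace c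
  exact ⟨inferInstance, isLocallyNoetherian_curve k c, LocallyOfFiniteType.jacobsonSpace c,
    valuationRing_stalk k c, isDiscreteValuationRing_stalk_of_isClosed k c,
    finite_of_isClosed_of_ne_univ k c,
    fun U hU hne => ⟨isDedekindDomain_of_isAffineOpen k c hU hne,
      not_isField_of_isAffineOpen k c hU hne⟩⟩

end Fermat.Agent.S25.H627
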