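import Fermat.Agent.S25.H627.AbelSurjGD
import Fermat.Agent.S25.H627.DivPoints

/-!
# Row S25, block ABEL (AB-ALG), leaf AA6 `abelDatum_surj`: abstract form (helper627)

`exists_points_isIso_homDatum`: over an algebraically closed field `K`, for a cospan
`R₀ → R₀₁ ← R₁` of Dedekind domains of finite type over `K` (`R₀₁ = R₀[1/x] = R₁[1/y]`) on which
the modification formula `EulerModification` (DEGREE leaf D3-a) holds and `χ(O) = 1 - g`:
for an effective Cartier divisor `U` of degree `g`, every gluing datum `G` with `χ(G) = χ(O)`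
is isomorphic to `ℋom(O(-D), O(-U))`, `D` the divisor of a `g`-tuple of chart points.

Proof: `χ(ℋom(O(-U), G)) = χ(G) + g = 1`, so there is a nonzero morphism `s : O(-U) → G`;
it is injective, its divisor `(I₀, I₁)` (colon ideals) is a compatible pair of nonzero ideals of
degree `χ(G) - χ(O(-U)) = g`, hence the divisor of `g` chart points (`DivPoints`), and division
by `s` is an isomorphism `G ≅ ℋom(O(-D), O(-U))` (`InvColon`, `AbelSurjGD`).
-/

set_option autoImplicit false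
set_option linter.style.haveILetI false
universe u
open scoped TensorProduct

namespace Fermat.Agent.S25.H627

open Fermat.Agent.S25 Fermat.Agent.S25.H747 Module

noncomputable section

section Euler

variable {K R₀ R₁ R₀₁ : Type u} [Field K] [CommRing R₀] [CommRing R₁]
    [CommRing R₀₁] [Algebra K R₀] [Algebra K R₁] [Algebra K R₀₁] [Algebra R₀ R₀₁]
    [Algebra R₁ R₀₁] [IsScalarTower K R₀ R₀₁] [IsScalarTower K R₁ R₀₁]

/-- The modification formula (DEGREE leaf D3-a) as a property of a cospan over a field. -/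
def EulerModification (K R₀ R₁ R₀₁ : Type u) [Field K] [CommRing R₀] [CommRing R₁]
    [CommRing R₀₁] [Algebra K R₀] [Algebra K R₁] [Algebra K R₀₁] [Algebra R₀ R₀₁]
    [Algebra R₁ R₀₁] [IsScalarTower K R₀ R₀₁] [IsScalarTower K R₁ R₀₁] : Prop :=
  ∀ {G G' : GlueDatum K R₀ R₁ R₀₁} (f : H10.GDHom G G'), f.Injective →
    Module.Finite K (G'.N₀ ⧸ LinearMap.range f.f₀) →
    Module.Finite K (G'.N₁ ⧸ LinearMap.range f.f₁) →
    G'.euler = G.euler + Module.finrank K (G'.N₀ ⧸ LinearMap.range f.f₀)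
      + Module.finrank K (G'.N₁ ⧸ LinearMap.range f.f₁)
      - Module.finrank K (G'.N₀₁ ⧸ LinearMap.range f.f₀₁)

theorem finite_maximalSpectrum_of_finite {R : Type u} [CommRing R] [Algebra K R]
    (T : Ideal R) [Module.Finite K (R ⧸ T)] : Finite (MaximalSpectrum (R ⧸ T)) := by
  haveI : IsArtinianRing (R ⧸ T) := IsArtinianRing.of_finite K (R ⧸ T)
  infer_instance

/-- The modification formula in terms of the divisor of the morphism. -/
theorem euler_eq_of_range_eq (hE : EulerModification K R₀ R₁ R₀₁)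
    {G G' : GlueDatum K R₀ R₁ R₀₁} (f : H10.GDHom G G') (hf : f.Injective)
    (T₀ : Ideal R₀) (T₁ : Ideal R₁) (T₀₁ : Ideal R₀₁)
    [Module.Finite K (R₀ ⧸ T₀)] [Module.Finite K (R₁ ⧸ T₁)] [Module.Finite K (R₀₁ ⧸ T₀₁)]
    (h₀ : LinearMap.range f.f₀ = T₀ • (⊤ : Submodule R₀ G'.N₀))
    (h₁ : LinearMap.range f.f₁ = T₁ • (⊤ : Submodule R₁ G'.N₁))
    (h₀₁ : LinearMap.range f.f₀₁ = T₀₁ • (⊤ : Submodule R₀₁ G'.N₀₁)) :
    G'.euler = G.euler + finrank K (R₀ ⧸ T₀) + finrank K (R₁ ⧸ T₁) - finrank K (R₀₁ ⧸ T₀₁) := by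
  haveI := G'.invertible₀
  haveI := G'.invertible₁
  haveI := invertible₀₁ G'
  haveI := finite_maximalSpectrum_of_finite (K := K) T₀
  haveI := finite_maximalSpectrum_of_finite (K := K) T₁
  haveI := finite_maximalSpectrum_of_finite (K := K) T₀₁
  rw [hE f hf (finite_quotient_of_eq_smul_top _ T₀ h₀) (finite_quotient_of_eq_smul_top _ T₁ h₁),
    finrank_quotient_eq_of_eq_smul_top _ T₀ h₀, finrank_quotient_eq_of_eq_smul_top _ T₁ h₁,
    finrank_quotient_eq_of_eq_smul_top _ T₀₁ h₀₁]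

end Euler

section Inj

variable {A R₀ R₁ R₀₁ : Type u} [CommRing A] [CommRing R₀] [CommRing R₁]
    [CommRing R₀₁] [Algebra A R₀] [Algebra A R₁] [Algebra A R₀₁] [Algebra R₀ R₀₁]
    [Algebra R₁ R₀₁] [IsScalarTower A R₀ R₀₁] [IsScalarTower A R₁ R₀₁]

/-- A base change map out of a projective module along an injective ring map is injective. -/
theorem isBaseChange_injective {R S N N' : Type u} [CommRing R] [CommRing S] [Algebra R S]
    [AddCommGroup N] [Module R N] [AddCommGroup N'] [Module R N'] [Module S N']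
    [IsScalarTower R S N'] [Module.Projective R N] {r : N →ₗ[R] N'} (hbc : IsBaseChange S r)
    (hinj : Function.Injective (algebraMap R S)) : Function.Injective r := by
  rw [injective_iff_map_eq_zero]
  intro n hn
  by_contra hn0
  obtain ⟨ψ, hψ⟩ := Module.Projective.exists_dual_ne_zero R hn0
  have h := hbc.lift_eq ((Algebra.linearMap R S).comp ψ) n
  rw [hn, map_zero] at h
  exact hψ (hinj (by simpa using h.symm))

/-- D3-c (own proof): a morphism of gluing data over a cospan of domains with injective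
structure maps which is nonzero on one chart is injective on the three rings. -/
theorem gdHom_injective [IsDomain R₀] [IsDomain R₁] [IsDomain R₀₁]
    (h₀ : Function.Injective (algebraMap R₀ R₀₁)) (h₁ : Function.Injective (algebraMap R₁ R₀₁))
    {E G : GlueDatum A R₀ R₁ R₀₁} (s : H10.GDHom E G) (hs : s.f₀ ≠ 0 ∨ s.f₁ ≠ 0) :
    Function.Injective s.f₀ ∧ Function.Injective s.f₁ ∧ Function.Injective s.f₀₁ := by
  haveI := E.invertible₀
  haveI := E.invertible₁
  haveI := G.invertible₀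
  haveI := G.invertible₁
  haveI := invertible₀₁ E
  haveI := invertible₀₁ G
  have hr₀ : Function.Injective G.r₀ := isBaseChange_injective G.isBaseChange₀ h₀
  have hr₁ : Function.Injective G.r₁ := isBaseChange_injective G.isBaseChange₁ h₁
  have h01 : s.f₀₁ ≠ 0 := by
    intro h
    rcases hs with hs | hs
    · apply hs
      ext a
      apply hr₀
      rw [← s.comm₀, h, LinearMap.zero_apply, LinearMap.zero_apply, map_zero]
    · apply hs
      ext a
      apply hr₁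
      rw [← s.comm₁, h, LinearMap.zero_apply, LinearMap.zero_apply, map_zero]
  have hf₀ : s.f₀ ≠ 0 := by
    intro h
    apply h01
    refine IsBaseChange.algHom_ext E.isBaseChange₀ _ _ fun a => ?_
    rw [s.comm₀, h, LinearMap.zero_apply, LinearMap.zero_apply, map_zero]
  have hf₁ : s.f₁ ≠ 0 := by
    intro h
    apply h01
    refine IsBaseChange.algHom_ext E.isBaseChange₁ _ _ fun a => ?_
    rw [s.comm₁, h, LinearMap.zero_apply, LinearMap.zero_apply, map_zero]
  exact ⟨injective_of_ne_zero _ hf₀, injective_of_ne_zero _ hf₁, injective_of_ne_zero _ h01⟩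

end Inj

section Subtype

theorem range_subtype_eq_smul_top {R : Type u} [CommRing R] (U : Ideal R) :
    LinearMap.range (Submodule.subtype U) = U • (⊤ : Submodule R R) := by
  rw [Submodule.range_subtype, Ideal.smul_eq_mul, Ideal.mul_top]

end Subtype

section Main

variable {K R₀ R₁ R₀₁ : Type u} [Field K] [IsAlgClosed K] [CommRing R₀] [CommRing R₁]
    [CommRing R₀₁] [Algebra K R₀] [Algebra K R₁] [Algebra K R₀₁] [Algebra R₀ R₀₁]
    [Algebra R₁ R₀₁] [IsScalarTower K R₀ R₀₁] [IsScalarTower K R₁ R₀₁]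
    [IsDedekindDomain R₀] [IsDedekindDomain R₁]
    [Algebra.FiniteType K R₀] [Algebra.FiniteType K R₁]

/-- **AA6, abstract form.**  Over an algebraically closed field, on a two-chart curve
`Spec R₀ ∪ Spec R₁` with Dedekind charts, let `U = (U₀, U₁, U₀₁)` be an effective Cartier
divisor of degree `g` where `χ(O) = 1 - g`.  Then every gluing datum `G` with `χ(G) = χ(O)` is
`ℋom(O(-D), O(-U))` for the divisor `D` of a `g`-tuple of chart points. -/
theorem exists_points_isIso_homDatum (x : R₀) (y : R₁) [IsLocalization.Away x R₀₁]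
    [IsLocalization.Away y R₀₁] (hx : x ≠ 0) (hy : y ≠ 0)
    (hEuler : EulerModification K R₀ R₁ R₀₁) (g : ℕ)
    (hunit : (GlueDatum.unit K R₀ R₁ R₀₁).euler = 1 - (g : ℤ))
    {U₀ : Ideal R₀} {U₁ : Ideal R₁} {U₀₁ : Ideal R₀₁} (hU : IsCartierTriple U₀ U₁ U₀₁)
    (hU₀ : U₀ ≠ ⊥) (hU₁ : U₁ ≠ ⊥)
    (hUg : (finrank K (R₀ ⧸ U₀) : ℤ) + finrank K (R₁ ⧸ U₁) - finrank K (R₀₁ ⧸ U₀₁) = g)
    (G : GlueDatum K R₀ R₁ R₀₁) (hG : G.euler = (GlueDatum.unit K R₀ R₁ R₀₁).euler) :
    ∃ P : Fin g → (R₀ →ₐ[K] K) ⊕ (R₁ →ₐ[K] K),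
      ∀ {T₀ : Ideal R₀} {T₁ : Ideal R₁} {T₀₁ : Ideal R₀₁} (hT : IsCartierTriple T₀ T₁ T₀₁),
        T₀ = ∏ j, ptIdeal₀ R₀₁ (P j) → T₁ = ∏ j, ptIdeal₁ R₀₁ (P j) →
        G.IsIso (homDatum (ofIdeals K hT) (ofIdeals K hU)) := by
  classical
  -- the ring of the intersection
  have hM₀ : Submonoid.powers x ≤ nonZeroDivisors R₀ :=
    Submonoid.powers_le.mpr (mem_nonZeroDivisors_of_ne_zero hx)
  have hM₁ : Submonoid.powers y ≤ nonZeroDivisors R₁ :=
    Submonoid.powers_le.mpr (mem_nonZeroDivisors_of_ne_zero hy)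
  haveI : IsDomain R₀₁ := IsLocalization.isDomain_of_le_nonZeroDivisors (S := R₀₁) hM₀
  haveI : IsDedekindDomain R₀₁ := IsLocalization.isDedekindDomain R₀ hM₀ R₀₁
  haveI : Algebra.FiniteType K R₀₁ :=
    Algebra.FiniteType.trans (S := R₀) inferInstance
      (IsLocalization.finiteType_of_monoid_fg (Submonoid.powers x) R₀₁)
  have hinj₀ : Function.Injective (algebraMap R₀ R₀₁) := IsLocalization.injective R₀₁ hM₀
  have hinj₁ : Function.Injective (algebraMap R₁ R₀₁) := IsLocalization.injective R₀₁ hM₁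
  -- the divisor `U`
  have hU₀₁ : U₀₁ ≠ ⊥ := by
    rw [← hU.map₀, Ne, Ideal.map_eq_bot_iff_of_injective hinj₀]; exact hU₀
  haveI := finite_quotient_of_ne_bot (K := K) U₀ hU₀
  haveI := finite_quotient_of_ne_bot (K := K) U₁ hU₁
  haveI := finite_quotient_of_ne_bot (K := K) U₀₁ hU₀₁
  haveI := hU.inv₀
  haveI := hU.inv₁
  haveI : Module.Invertible R₀₁ U₀₁ := invertible₀₁ (ofIdeals K hU)
  haveI := G.invertible₀
  haveI := G.invertible₁
  haveI := invertible₀₁ G
  set E := ofIdeals K hU with hEdef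
  -- `χ(O) = χ(E) + g`
  have h1 : (GlueDatum.unit K R₀ R₁ R₀₁).euler = E.euler + g := by
    have := euler_eq_of_range_eq hEuler (idealIncl hU)
      ⟨Submodule.injective_subtype _, Submodule.injective_subtype _⟩ U₀ U₁ U₀₁
      (range_subtype_eq_smul_top U₀) (range_subtype_eq_smul_top U₁)
      (range_subtype_eq_smul_top U₀₁)
    rw [this]; linarith
  -- `χ(ℋom(E, G)) = χ(G) + g`
  have h2 : (homDatum E G).euler = G.euler + g := by
    have := euler_eq_of_range_eq hEuler (homIncl hU G)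
      ⟨homSMul_injective U₀ G.N₀ hU₀, homSMul_injective U₁ G.N₁ hU₁⟩ U₀ U₁ U₀₁
      (range_homSMul U₀ G.N₀) (range_homSMul U₁ G.N₁) (range_homSMul U₀₁ G.N₀₁)
    rw [this]; linarith
  -- a nonzero global section of `ℋom(E, G)`
  have h3 : (homDatum E G).euler = 1 := by rw [h2, hG, hunit]; ring
  obtain ⟨σ, hσ⟩ : ∃ σ : (homDatum E G).H0, σ ≠ 0 := by
    by_contra hcon
    push Not at hcon
    haveI : Subsingleton (homDatum E G).H0 := ⟨fun a b => (hcon a).trans (hcon b).symm⟩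
    have h0 : finrank K (homDatum E G).H0 = 0 := finrank_zero_of_subsingleton
    unfold GlueDatum.euler at h3
    rw [h0] at h3
    have : (0 : ℤ) ≤ (finrank K (homDatum E G).H1 : ℤ) := Int.natCast_nonneg _
    simp only [Nat.cast_zero] at h3
    linarith
  set s := ofHomSection E G σ with hsdef
  have hs_ne : s.f₀ ≠ 0 ∨ s.f₁ ≠ 0 := by
    by_contra hcon
    push Not at hcon
    apply hσ
    apply Subtype.ext
    exact Prod.ext hcon.1 hcon.2
  obtain ⟨hs₀, hs₁, hs₀₁⟩ := gdHom_injective hinj₀ hinj₁ s hs_ne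
  -- the divisor of `s`
  set I₀ := (LinearMap.range s.f₀).colon Set.univ with hI₀
  set I₁ := (LinearMap.range s.f₁).colon Set.univ with hI₁
  have hr₀ : LinearMap.range s.f₀ = I₀ • (⊤ : Submodule R₀ G.N₀) := (colon_smul_top _).symm
  have hr₁ : LinearMap.range s.f₁ = I₁ • (⊤ : Submodule R₁ G.N₁) := (colon_smul_top _).symm
  have hI₀0 : I₀ ≠ ⊥ := by
    intro h
    rw [h, Submodule.bot_smul] at hr₀
    have hz : s.f₀ = 0 := LinearMap.range_eq_bot.mp hr₀
    obtain ⟨c, hc, hc0⟩ := Submodule.exists_mem_ne_zero_of_ne_bot hU₀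
    have h0 := hs₀ (a₁ := (⟨c, hc⟩ : U₀)) (a₂ := 0) (by rw [hz]; simp)
    exact hc0 (congrArg Subtype.val h0)
  have hI₁0 : I₁ ≠ ⊥ := by
    intro h
    rw [h, Submodule.bot_smul] at hr₁
    have hz : s.f₁ = 0 := LinearMap.range_eq_bot.mp hr₁
    obtain ⟨c, hc, hc0⟩ := Submodule.exists_mem_ne_zero_of_ne_bot hU₁
    have h0 := hs₁ (a₁ := (⟨c, hc⟩ : U₁)) (a₂ := 0) (by rw [hz]; simp)
    exact hc0 (congrArg Subtype.val h0)
  have hr₀₁ : LinearMap.range s.f₀₁ =
      (I₀.map (algebraMap R₀ R₀₁)) • (⊤ : Submodule R₀₁ G.N₀₁) :=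
    range_eq_map_smul_top E.isBaseChange₀ G.isBaseChange₀ s.f₀ s.f₀₁ s.comm₀ I₀ hr₀
  have hr₀₁' : LinearMap.range s.f₀₁ =
      (I₁.map (algebraMap R₁ R₀₁)) • (⊤ : Submodule R₀₁ G.N₀₁) :=
    range_eq_map_smul_top E.isBaseChange₁ G.isBaseChange₁ s.f₁ s.f₀₁ s.comm₁ I₁ hr₁
  have hcompat : I₀.map (algebraMap R₀ R₀₁) = I₁.map (algebraMap R₁ R₀₁) :=
    ideal_eq_of_smul_top_eq (M := G.N₀₁) (hr₀₁.symm.trans hr₀₁')
  have hI₀₁0 : I₀.map (algebraMap R₀ R₀₁) ≠ ⊥ := by
    rwa [Ne, Ideal.map_eq_bot_iff_of_injective hinj₀]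
  haveI := finite_quotient_of_ne_bot (K := K) I₀ hI₀0
  haveI := finite_quotient_of_ne_bot (K := K) I₁ hI₁0
  haveI := finite_quotient_of_ne_bot (K := K) (I₀.map (algebraMap R₀ R₀₁)) hI₀₁0
  have h4 := euler_eq_of_range_eq hEuler s ⟨hs₀, hs₁⟩ I₀ I₁ (I₀.map (algebraMap R₀ R₀₁))
    hr₀ hr₁ hr₀₁
  -- the points
  obtain ⟨n, P, hP₀, hP₁, hn⟩ :=
    exists_points_of_compatible (K := K) R₀₁ x y hx I₀ I₁ hI₀0 hI₁0 hcompat
  have hng : n = g := by
    have : (n : ℤ) = g := by rw [hn]; linarith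
    exact_mod_cast this
  subst hng
  refine ⟨P, fun {T₀ T₁ T₀₁} hT e₀ e₁ => ?_⟩
  have eT₀ : T₀ = I₀ := e₀.trans hP₀.symm
  have eT₁ : T₁ = I₁ := e₁.trans hP₁.symm
  have eT₀₁ : T₀₁ = I₀.map (algebraMap R₀ R₀₁) := by rw [← hT.map₀, eT₀]
  exact isIso_homDatum_of_range_eq s hs₀ hs₁ hs₀₁ hT (by rw [hr₀, eT₀]) (by rw [hr₁, eT₁])
    (by rw [hr₀₁, eT₀₁]) (eT₀ ▸ hI₀0) (eT₁ ▸ hI₁0) (eT₀₁ ▸ hI₀₁0)

end Main

end

end Fermat.Agent.S25.H627
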