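/-
S25 / block ABEL, sub-block AB-ALG (helper627): leaf **AA6** (surjectivity of the algebraic
Abel map on geometric points) in its frozen form `H747.StmtAA6`, and hence `Stmt.AlgAbel`.

* `convHom`, `convPt`: chart points of the base-changed cospan `(K ⊗ B₀, K ⊗ B₁)` are chart
  points of `(B₀, B₁)` with values in `K`; compatibility with the point ideals;
* the divisor `g·ε`: `tupI₀ = ⊤`, `tupI₁ = J ^ g` with `J` the (maximal, nonzero) ideal of `ε`;
* `abelDatum_surj`: every degree-`0` gluing datum over an algebraically closed field `K` is the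
  Abel datum of a `g`-tuple of chart points (`g` the genus);
* `stmtAA6`, `stmt_algAbel`.

Inputs: the abstract form `exists_points_isIso_homDatum` (this directory), D3-a
(`H565.D.euler_eq_of_injective`), D6 (`H910.finrank_H0_unit`, `H910.finrank_H1_unit`),
`H207` (the charts are Dedekind), `H265.curveGD_isBC_id`, AA1 (`H747.tupCartier`).
-/
import Fermat.Agent.S25.H627.AbelSurj
import Fermat.Agent.S25.H747.AlgAbelOfSurj
import Fermat.Agent.S25.H565.DegreeD3
import Fermat.Agent.S25.H910.UnitDegree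
import Fermat.Agent.S25.H207.ChartCor
import Fermat.Agent.S25.H265.GDCCurve

set_option autoImplicit false
set_option linter.style.haveILetI false
set_option linter.unusedSectionVars false
universe u
open scoped TensorProduct

namespace Fermat.Agent.S25.H627

open Fermat.Agent.S25 Fermat.Agent.S25.H747 Module

noncomputable section

section Conv

variable {k : Type u} [Field k] {K : Type u} [Field K] [Algebra k K]
  {B : Type u} [CommRing B] [Algebra k B]

/-- The `k`-point of `Spec B` with values in `K` underlying a `K`-point of `Spec (K ⊗ B)`. -/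
def convHom (Φ : K ⊗[k] B →ₐ[K] K) : B →ₐ[k] K :=
  (Φ.restrictScalars k).comp Algebra.TensorProduct.includeRight

theorem evalHom_convHom (Φ : K ⊗[k] B →ₐ[K] K) : evalHom (convHom Φ) = Φ := by
  apply Algebra.TensorProduct.ext'
  intro a b
  rw [evalHom_tmul]
  show a * Φ ((1 : K) ⊗ₜ[k] b) = Φ (a ⊗ₜ[k] b)
  rw [← smul_eq_mul, ← map_smul, TensorProduct.smul_tmul', smul_eq_mul, mul_one]

theorem graphIdeal_convHom (Φ : K ⊗[k] B →ₐ[K] K) :
    graphIdeal (convHom Φ) = RingHom.ker Φ := by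
  rw [graphIdeal, evalHom_convHom]

/-- The ideal of the graph of a point with values in a field is maximal. -/
theorem graphIdeal_isMaximal (φ : B →ₐ[k] K) : (graphIdeal φ).IsMaximal :=
  RingHom.ker_isMaximal_of_surjective _ (evalHom_surjective φ)

end Conv

section Chart

variable {k : Type u} [Field k]
  {B₀ B₁ B₀₁ : Type u} [CommRing B₀] [CommRing B₁] [CommRing B₀₁]
  [Algebra k B₀] [Algebra k B₁] [Algebra k B₀₁] [Algebra B₀ B₀₁] [Algebra B₁ B₀₁]
  [IsScalarTower k B₀ B₀₁] [IsScalarTower k B₁ B₀₁]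
  {K : Type u} [Field K] [Algebra k K]

/-- Conversion of abstract chart points of `(K ⊗ B₀, K ⊗ B₁)` to chart points of `(B₀, B₁)`. -/
def convPt (P : ((K ⊗[k] B₀) →ₐ[K] K) ⊕ ((K ⊗[k] B₁) →ₐ[K] K)) : H746.ChartPt k B₀ B₁ K :=
  Sum.map convHom convHom P

theorem ptI₀_convPt (P : ((K ⊗[k] B₀) →ₐ[K] K) ⊕ ((K ⊗[k] B₁) →ₐ[K] K)) :
    ptI₀ B₀₁ (convPt P) = ptIdeal₀ (K ⊗[k] B₀₁) P := by
  rcases P with Φ | Ψ
  · show graphIdeal (convHom Φ) = RingHom.ker Φ
    exact graphIdeal_convHom Φ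
  · show ((graphIdeal (convHom Ψ)).map _).comap _ = ((RingHom.ker Ψ).map _).comap _
    rw [graphIdeal_convHom]

theorem ptI₁_convPt (P : ((K ⊗[k] B₀) →ₐ[K] K) ⊕ ((K ⊗[k] B₁) →ₐ[K] K)) :
    ptI₁ B₀₁ (convPt P) = ptIdeal₁ (K ⊗[k] B₀₁) P := by
  rcases P with Φ | Ψ
  · show ((graphIdeal (convHom Φ)).map _).comap _ = ((RingHom.ker Φ).map _).comap _
    rw [graphIdeal_convHom]
  · show graphIdeal (convHom Ψ) = RingHom.ker Ψ
    exact graphIdeal_convHom Ψ

theorem tupI₀_convPt {g : ℕ} (P : Fin g → ((K ⊗[k] B₀) →ₐ[K] K) ⊕ ((K ⊗[k] B₁) →ₐ[K] K)) :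
    tupI₀ B₀₁ (fun j => convPt (P j)) = ∏ j, ptIdeal₀ (K ⊗[k] B₀₁) (P j) :=
  Finset.prod_congr rfl fun j _ => ptI₀_convPt (P j)

theorem tupI₁_convPt {g : ℕ} (P : Fin g → ((K ⊗[k] B₀) →ₐ[K] K) ⊕ ((K ⊗[k] B₁) →ₐ[K] K)) :
    tupI₁ B₀₁ (fun j => convPt (P j)) = ∏ j, ptIdeal₁ (K ⊗[k] B₀₁) (P j) :=
  Finset.prod_congr rfl fun j _ => ptI₁_convPt (P j)

end Chart

section Eps

variable {k : Type u} [Field k] [IsAlgClosed k]
  {B₀ B₁ B₀₁ : Type u} [CommRing B₀] [CommRing B₁] [CommRing B₀₁]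
  [Algebra k B₀] [Algebra k B₁] [Algebra k B₀₁] [Algebra B₀ B₀₁] [Algebra B₁ B₀₁]
  [IsScalarTower k B₀ B₀₁] [IsScalarTower k B₁ B₀₁]
  {x : B₀} {y : B₁} {e : B₁ →ₐ[k] k}

/-- `1 ⊗ y` vanishes at the marked point. -/
theorem tmul_y_mem_graphIdeal (hC : IsCurveChart k B₀ B₁ B₀₁ x y e) (K : Type u) [Field K]
    [Algebra k K] : (1 : K) ⊗ₜ[k] y ∈ graphIdeal ((Algebra.ofId k K).comp e) := by
  rw [graphIdeal, RingHom.mem_ker, evalHom_tmul, AlgHom.comp_apply, hC.e_y, map_zero, mul_zero]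

/-- The marked point does not lie on the intersection of the charts. -/
theorem map_graphIdeal_eps (hC : IsCurveChart k B₀ B₁ B₀₁ x y e) (K : Type u) [Field K]
    [Algebra k K] :
    (graphIdeal ((Algebra.ofId k K).comp e)).map (algebraMap (K ⊗[k] B₁) (K ⊗[k] B₀₁)) = ⊤ :=
  Ideal.eq_top_of_isUnit_mem _ (Ideal.mem_map_of_mem _ (tmul_y_mem_graphIdeal hC K))
    (IsUnit.of_mul_eq_one _ (chart_mul_eq_one' hC K))

theorem ptI₀_epsPt (hC : IsCurveChart k B₀ B₁ B₀₁ x y e) (K : Type u) [Field K]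
    [Algebra k K] : ptI₀ B₀₁ (epsPt B₀ e K) = ⊤ := by
  show ((graphIdeal ((Algebra.ofId k K).comp e)).map _).comap _ = ⊤
  rw [map_graphIdeal_eps hC K, Ideal.comap_top]

theorem ptI₁_epsPt (K : Type u) [Field K] [Algebra k K] :
    ptI₁ B₀₁ (epsPt B₀ e K) = graphIdeal ((Algebra.ofId k K).comp e) := rfl

theorem tupI₀_epsPt (hC : IsCurveChart k B₀ B₁ B₀₁ x y e) (K : Type u) [Field K]
    [Algebra k K] (g : ℕ) : tupI₀ B₀₁ (fun _ : Fin g => epsPt B₀ e K) = ⊤ := by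
  rw [tupI₀, Finset.prod_const, ptI₀_epsPt hC K, Ideal.top_pow]

theorem tupI₁_epsPt (K : Type u) [Field K] [Algebra k K] (g : ℕ) :
    tupI₁ B₀₁ (fun _ : Fin g => epsPt B₀ e K) = graphIdeal ((Algebra.ofId k K).comp e) ^ g := by
  rw [tupI₁, Finset.prod_const, ptI₁_epsPt K, Finset.card_univ, Fintype.card_fin]

end Eps

section Final

variable {k : Type u} [Field k] [IsAlgClosed k]
  {B₀ B₁ B₀₁ : Type u} [CommRing B₀] [CommRing B₁] [CommRing B₀₁]
  [Algebra k B₀] [Algebra k B₁] [Algebra k B₀₁] [Algebra B₀ B₀₁] [Algebra B₁ B₀₁]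
  [IsScalarTower k B₀ B₀₁] [IsScalarTower k B₁ B₀₁]
  {x : B₀} {y : B₁} {e : B₁ →ₐ[k] k}

omit [IsAlgClosed k] in
/-- D3-a (helper565) in the abstract form used by `exists_points_isIso_homDatum`. -/
theorem eulerModification_chart (hC : IsCurveChart k B₀ B₁ B₀₁ x y e) (K : Type u) [Field K]
    [Algebra k K] : EulerModification K (K ⊗[k] B₀) (K ⊗[k] B₁) (K ⊗[k] B₀₁) :=
  fun f hf h₀ h₁ => H565.D.euler_eq_of_injective hC f hf h₀ h₁

/-- `χ(O) = 1 - g` (helper910). -/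
theorem euler_unit_chart (hC : IsCurveChart k B₀ B₁ B₀₁ x y e) (K : Type u) [Field K]
    [Algebra k K] :
    (GlueDatum.unit K (K ⊗[k] B₀) (K ⊗[k] B₁) (K ⊗[k] B₀₁)).euler =
      1 - (genus k B₀ B₁ B₀₁ : ℤ) := by
  rw [GlueDatum.euler, H910.finrank_H0_unit hC K, H910.finrank_H1_unit hC K]
  rfl

/-- **AA6.**  Over an algebraically closed field `K`, every gluing datum of degree `0` is
isomorphic to the Abel datum of a `g`-tuple of chart points, `g` the genus. -/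
theorem abelDatum_surj (hC : IsCurveChart k B₀ B₁ B₀₁ x y e)
    (K : Type u) [Field K] [IsAlgClosed K] [Algebra k K] (G : CurveGD k B₀ B₁ B₀₁ K)
    (hG : G.Deg0) :
    ∃ P : Fin (genus k B₀ B₁ B₀₁) → H746.ChartPt k B₀ B₁ K,
      G.IsIso (abelDatum (B₀₁ := B₀₁) e (genus k B₀ B₁ B₀₁) K P) := by
  classical
  set g := genus k B₀ B₁ B₀₁ with hg
  -- the charts over `K`
  haveI := H207.isDedekindDomain_tensor_chart₀ hC K
  haveI := H207.isDedekindDomain_tensor_chart₁ hC K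
  haveI : Algebra.FiniteType k B₀ := H207.finiteType_chart₀ hC
  haveI : Algebra.FiniteType k B₁ := H207.finiteType_chart₁ hC
  haveI : Algebra.FiniteType K (K ⊗[k] B₀) := inferInstance
  haveI : Algebra.FiniteType K (K ⊗[k] B₁) := inferInstance
  haveI := H565.chart_away₀ hC K
  haveI := H565.chart_away₁ hC K
  have hx : ((1 : K) ⊗ₜ[k] x : K ⊗[k] B₀) ≠ 0 := by
    intro h
    exact chart_x_ne_zero hC
      (Algebra.TensorProduct.includeRight_injective (R := k) (A := K) (B := B₀)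
        (algebraMap k K).injective (by simpa using h))
  have hy : ((1 : K) ⊗ₜ[k] y : K ⊗[k] B₁) ≠ 0 := by
    intro h
    exact chart_y_ne_zero hC
      (Algebra.TensorProduct.includeRight_injective (R := k) (A := K) (B := B₁)
        (algebraMap k K).injective (by simpa using h))
  -- the divisor `g·ε`
  have hU : TupCartier (B₀₁ := B₀₁) (fun _ : Fin g => epsPt B₀ e K) := tupCartier hC K _
  have hU' : IsCartierTriple (tupI₀ B₀₁ (fun _ : Fin g => epsPt B₀ e K))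
      (tupI₁ B₀₁ (fun _ : Fin g => epsPt B₀ e K))
      (tupI₀₁ B₀₁ (fun _ : Fin g => epsPt B₀ e K)) := hU
  haveI hJmax : (graphIdeal ((Algebra.ofId k K).comp e) : Ideal (K ⊗[k] B₁)).IsMaximal :=
    graphIdeal_isMaximal _
  have hJ : (graphIdeal ((Algebra.ofId k K).comp e) : Ideal (K ⊗[k] B₁)) ≠ ⊥ := by
    intro h
    have := tmul_y_mem_graphIdeal hC K
    rw [h, Ideal.mem_bot] at this
    exact hy this
  have hU₀ : tupI₀ B₀₁ (fun _ : Fin g => epsPt B₀ e K) ≠ ⊥ := by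
    rw [tupI₀_epsPt hC K g]
    exact top_ne_bot
  have hU₁ : tupI₁ B₀₁ (fun _ : Fin g => epsPt B₀ e K) ≠ ⊥ := by
    rw [tupI₁_epsPt K g]
    exact pow_ne_zero g (show graphIdeal ((Algebra.ofId k K).comp e) ≠ 0 from hJ)
  have hU₀₁ : tupI₀₁ B₀₁ (fun _ : Fin g => epsPt B₀ e K) = ⊤ := by
    rw [← hU'.map₀, tupI₀_epsPt hC K g, Ideal.map_top]
  have hUg : (finrank K ((K ⊗[k] B₀) ⧸ tupI₀ B₀₁ (fun _ : Fin g => epsPt B₀ e K)) : ℤ)
      + finrank K ((K ⊗[k] B₁) ⧸ tupI₁ B₀₁ (fun _ : Fin g => epsPt B₀ e K))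
      - finrank K ((K ⊗[k] B₀₁) ⧸ tupI₀₁ B₀₁ (fun _ : Fin g => epsPt B₀ e K)) = g := by
    rw [finrank_quotient_congr (K := K) (tupI₀_epsPt hC K g),
      finrank_quotient_congr (K := K) (tupI₁_epsPt K g),
      finrank_quotient_congr (K := K) hU₀₁, finrank_quotient_top, finrank_quotient_top,
      finrank_quotient_pow _ hJ g]
    simp
  -- degree `0` means `χ(G) = χ(O)`
  have hdeg : G.degree = 0 := hG K (AlgHom.id k K) G (H265.curveGD_isBC_id G)
  have hGe : G.euler = (GlueDatum.unit K (K ⊗[k] B₀) (K ⊗[k] B₁) (K ⊗[k] B₀₁)).euler := by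
    rw [GlueDatum.degree] at hdeg
    linarith
  obtain ⟨P, hP⟩ := exists_points_isIso_homDatum ((1 : K) ⊗ₜ[k] x) ((1 : K) ⊗ₜ[k] y) hx hy
    (eulerModification_chart hC K) g (euler_unit_chart hC K) hU' hU₀ hU₁ hUg G hGe
  refine ⟨fun j => convPt (P j), ?_⟩
  have hT : TupCartier (B₀₁ := B₀₁) (fun j => convPt (P j)) := tupCartier hC K _
  rw [abelDatum_eq e g K _ hT hU]
  exact hP hT (tupI₀_convPt P) (tupI₁_convPt P)

variable (k B₀ B₁ B₀₁) in
/-- Leaf **AA6** in the form consumed by `H747.algAbel_of_surj`. -/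
theorem stmtAA6 : StmtAA6 k B₀ B₁ B₀₁ :=
  fun _ _ _ hC K _ _ _ G hG => abelDatum_surj hC K G hG

variable (k B₀ B₁ B₀₁) in
/-- **`Stmt.AlgAbel`** (sub-block AB-ALG of block ABEL), unconditionally. -/
theorem stmt_algAbel : H746.Stmt.AlgAbel k B₀ B₁ B₀₁ :=
  algAbel_of_surj (stmtAA6 k B₀ B₁ B₀₁)

end Final

end

end Fermat.Agent.S25.H627
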