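import Fermat.Agent.S25.H747.AbAlgDefs
import Fermat.Agent.S25.H10.DegreeDefs
import Fermat.Agent.S25.H627.InvColon

/-!
# Row S25, block ABEL (AB-ALG), leaf AA6 `abelDatum_surj`: gluing-data part (helper627)

General cospan `R₀ → R₀₁ ← R₁` (frozen `DefsAlg`, `H747/GDHom`, `H10/DegreeDefs`):
* `invertible₀₁` : sections over the intersection form an invertible module;
* `range_eq_map_smul_top` : base change of `range s = I • ⊤`;
* `homIncl hT G : G → ℋom(O(-D), G)`, `idealIncl hT : O(-D) → O`, `ofHomSection E G σ : E → G`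
  (morphisms of gluing data in the sense of `H10.GDHom`);
* `isIso_homDatum_of_range_eq` : a morphism `s : E → G` with divisor `D` gives `G ≅ ℋom(O(-D), E)`.
-/

set_option autoImplicit false
set_option linter.style.haveILetI false
universe u
open scoped TensorProduct

namespace Fermat.Agent.S25.H627

open Fermat.Agent.S25 Fermat.Agent.S25.H747

noncomputable section

section General

variable {A R₀ R₁ R₀₁ : Type u} [CommRing A] [CommRing R₀] [CommRing R₁]
    [CommRing R₀₁] [Algebra A R₀] [Algebra A R₁] [Algebra A R₀₁] [Algebra R₀ R₀₁]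
    [Algebra R₁ R₀₁] [IsScalarTower A R₀ R₀₁] [IsScalarTower A R₁ R₀₁]

/-- The module of sections over the intersection is invertible. -/
theorem invertible₀₁ (G : GlueDatum A R₀ R₁ R₀₁) : Module.Invertible R₀₁ G.N₀₁ :=
  haveI := G.invertible₀
  Module.Invertible.congr G.isBaseChange₀.equiv

/-- Abstract form of GL2: base change of the range of a map with `range = I • ⊤`. -/
theorem range_eq_map_smul_top {R S : Type u} [CommRing R] [CommRing S] [Algebra R S]
    {E N E' N' : Type u} [AddCommGroup E] [Module R E] [AddCommGroup N] [Module R N]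
    [AddCommGroup E'] [Module R E'] [Module S E'] [IsScalarTower R S E']
    [AddCommGroup N'] [Module R N'] [Module S N'] [IsScalarTower R S N']
    {rE : E →ₗ[R] E'} (hE : IsBaseChange S rE) {rN : N →ₗ[R] N'} (hN : IsBaseChange S rN)
    (s : E →ₗ[R] N) (s' : E' →ₗ[S] N') (hcomm : ∀ a, s' (rE a) = rN (s a))
    (I : Ideal R) (h : LinearMap.range s = I • (⊤ : Submodule R N)) :
    LinearMap.range s' = (I.map (algebraMap R S)) • (⊤ : Submodule S N') := by
  apply le_antisymm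
  · rintro _ ⟨z, rfl⟩
    refine hE.inductionOn z (fun z => s' z ∈ (I.map (algebraMap R S)) • (⊤ : Submodule S N'))
      (by simp) (fun a => ?_) (fun t n hn => ?_) (fun n₁ n₂ h₁ h₂ => ?_)
    · rw [hcomm]
      have ha : s a ∈ I • (⊤ : Submodule R N) := h ▸ LinearMap.mem_range_self s a
      refine Submodule.smul_induction_on ha (fun c hc n _ => ?_) (fun x y hx hy => ?_)
      · rw [map_smul, ← algebraMap_smul S c (rN n)]
        exact Submodule.smul_mem_smul (Ideal.mem_map_of_mem _ hc) Submodule.mem_top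
      · rw [map_add]; exact Submodule.add_mem _ hx hy
    · rw [map_smul]; exact Submodule.smul_mem _ _ hn
    · rw [map_add]; exact Submodule.add_mem _ h₁ h₂
  · rw [Submodule.smul_le]
    intro r hr n₀ _
    suffices hsuff : ∀ n' : N', r • n' ∈ LinearMap.range s' from hsuff n₀
    have key : ∀ c ∈ I, ∀ n' : N', algebraMap R S c • n' ∈ LinearMap.range s' := by
      intro c hc n'
      refine hN.inductionOn n' (fun n' => algebraMap R S c • n' ∈ LinearMap.range s')
        (by simp) (fun n => ?_) (fun t n hn => ?_) (fun n₁ n₂ h₁ h₂ => ?_)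
      · have hcn : c • n ∈ LinearMap.range s := by
          rw [h]; exact Submodule.smul_mem_smul hc Submodule.mem_top
        obtain ⟨a, ha⟩ := hcn
        refine ⟨rE a, ?_⟩
        rw [hcomm, ha, map_smul, algebraMap_smul]
      · rw [smul_comm]; exact Submodule.smul_mem _ _ hn
      · rw [smul_add]; exact Submodule.add_mem _ h₁ h₂
    refine Submodule.span_induction (p := fun r _ => ∀ n' : N', r • n' ∈ LinearMap.range s')
      ?_ ?_ ?_ ?_ hr
    · rintro _ ⟨c, hc, rfl⟩ n'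
      exact key c hc n'
    · intro n'; simp
    · intro x y _ _ hx hy n'
      rw [add_smul]; exact Submodule.add_mem _ (hx n') (hy n')
    · intro t x _ hx n'
      rw [smul_eq_mul, mul_smul]; exact Submodule.smul_mem _ _ (hx n')

/-- Compatibility of `homSMul` with base change of ideals and modules. -/
theorem homSMul_comm {R S : Type u} [CommRing R] [CommRing S] [Algebra R S]
    {N N' : Type u} [AddCommGroup N] [Module R N]
    [AddCommGroup N'] [Module R N'] [Module S N'] [IsScalarTower R S N']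
    (rN : N →ₗ[R] N') (T : Ideal R) (T' : Ideal S) (hTT : T.map (algebraMap R S) ≤ T')
    (hbc : IsBaseChange S (idealRes T T' hTT)) (n : N) :
    homSMul T' N' (rN n) = IsBaseChange.linearMapLeftRightHom hbc rN (homSMul T N n) := by
  refine IsBaseChange.algHom_ext hbc _ _ fun c => ?_
  rw [IsBaseChange.linearMapLeftRightHom_comp_apply, homSMul_apply, homSMul_apply, map_smul,
    idealRes_coe, algebraMap_smul]

/-- GL3: the inclusion `G ⊆ G(D) = ℋom(O(-D), G)`. -/
def homIncl {T₀ : Ideal R₀} {T₁ : Ideal R₁} {T₀₁ : Ideal R₀₁}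
    (hT : IsCartierTriple T₀ T₁ T₀₁) (G : GlueDatum A R₀ R₁ R₀₁) :
    H10.GDHom G (homDatum (ofIdeals A hT) G) where
  f₀ := homSMul T₀ G.N₀
  f₁ := homSMul T₁ G.N₁
  f₀₁ := homSMul T₀₁ G.N₀₁
  comm₀ n := homSMul_comm G.r₀ T₀ T₀₁ hT.map₀.le hT.bc₀ n
  comm₁ n := homSMul_comm G.r₁ T₁ T₀₁ hT.map₁.le hT.bc₁ n

/-- GL5: the inclusion `O(-D) ⊆ O`. -/
def idealIncl {T₀ : Ideal R₀} {T₁ : Ideal R₁} {T₀₁ : Ideal R₀₁}
    (hT : IsCartierTriple T₀ T₁ T₀₁) :
    H10.GDHom (ofIdeals A hT) (GlueDatum.unit A R₀ R₁ R₀₁) where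
  f₀ := Submodule.subtype T₀
  f₁ := Submodule.subtype T₁
  f₀₁ := Submodule.subtype T₀₁
  comm₀ _ := rfl
  comm₁ _ := rfl

/-- GL6: a global section of `ℋom(E, G)` is a morphism `E → G`. -/
def ofHomSection (E G : GlueDatum A R₀ R₁ R₀₁) (σ : (homDatum E G).H0) : H10.GDHom E G where
  f₀ := σ.1.1
  f₁ := σ.1.2
  f₀₁ := (homDatum E G).r₀ σ.1.1
  comm₀ a := IsBaseChange.linearMapLeftRightHom_comp_apply _ _ _ _
  comm₁ a := by
    have h0 : (homDatum E G).cech (σ.1.1, σ.1.2) = 0 := LinearMap.mem_ker.mp σ.2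
    have h1 : (homDatum E G).r₀ σ.1.1 + -((homDatum E G).r₁ σ.1.2) = 0 := h0
    have h2 : (homDatum E G).r₀ σ.1.1 = (homDatum E G).r₁ σ.1.2 :=
      eq_neg_iff_add_eq_zero.mpr h1 |>.trans (neg_neg _)
    rw [h2]
    exact IsBaseChange.linearMapLeftRightHom_comp_apply _ _ _ _

/-- Compatibility of `divMap` with base change. -/
theorem divMap_comm {R S : Type u} [CommRing R] [CommRing S] [Algebra R S]
    {E N E' N' : Type u} [AddCommGroup E] [Module R E] [AddCommGroup N] [Module R N]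
    [AddCommGroup E'] [Module R E'] [Module S E'] [IsScalarTower R S E']
    [AddCommGroup N'] [Module R N'] [Module S N'] [IsScalarTower R S N']
    (rE : E →ₗ[R] E') (rN : N →ₗ[R] N')
    (s : E →ₗ[R] N) (hs : Function.Injective s) (s' : E' →ₗ[S] N')
    (hs' : Function.Injective s') (hcomm : ∀ a, s' (rE a) = rN (s a))
    (T : Ideal R) (T' : Ideal S) (hTT : T.map (algebraMap R S) ≤ T')
    (hbc : IsBaseChange S (idealRes T T' hTT))
    (hT : LinearMap.range s = T • (⊤ : Submodule R N))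
    (hT' : LinearMap.range s' = T' • (⊤ : Submodule S N')) (n : N) :
    divMap s' hs' T' hT' (rN n) =
      IsBaseChange.linearMapLeftRightHom hbc rE (divMap s hs T hT n) := by
  refine IsBaseChange.algHom_ext hbc _ _ fun c => ?_
  apply hs'
  rw [IsBaseChange.linearMapLeftRightHom_comp_apply, s_divMap, hcomm, s_divMap, map_smul,
    idealRes_coe, algebraMap_smul]

/-- GL7: if the morphism `s : E → G` has divisor `D` (i.e. `range s = O(-D) G` on the three
rings), then `G ≅ ℋom(O(-D), E)`. -/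
theorem isIso_homDatum_of_range_eq [IsDedekindDomain R₀] [IsDedekindDomain R₁]
    [IsDedekindDomain R₀₁] {E G : GlueDatum A R₀ R₁ R₀₁} (s : H10.GDHom E G)
    (hs₀ : Function.Injective s.f₀) (hs₁ : Function.Injective s.f₁)
    (hs₀₁ : Function.Injective s.f₀₁)
    {T₀ : Ideal R₀} {T₁ : Ideal R₁} {T₀₁ : Ideal R₀₁} (hT : IsCartierTriple T₀ T₁ T₀₁)
    (h₀ : LinearMap.range s.f₀ = T₀ • (⊤ : Submodule R₀ G.N₀))
    (h₁ : LinearMap.range s.f₁ = T₁ • (⊤ : Submodule R₁ G.N₁))
    (h₀₁ : LinearMap.range s.f₀₁ = T₀₁ • (⊤ : Submodule R₀₁ G.N₀₁))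
    (hT₀ : T₀ ≠ ⊥) (hT₁ : T₁ ≠ ⊥) (hT₀₁ : T₀₁ ≠ ⊥) :
    G.IsIso (homDatum (ofIdeals A hT) E) := by
  haveI := E.invertible₀
  haveI := E.invertible₁
  haveI := G.invertible₀
  haveI := G.invertible₁
  haveI := invertible₀₁ E
  haveI := invertible₀₁ G
  haveI := hT.inv₀
  haveI := hT.inv₁
  haveI : Module.Invertible R₀₁ T₀₁ := invertible₀₁ (ofIdeals A hT)
  exact ⟨{
    e₀ := LinearEquiv.ofBijective (divMap s.f₀ hs₀ T₀ h₀) (divMap_bijective s.f₀ hs₀ T₀ h₀ hT₀)
    e₁ := LinearEquiv.ofBijective (divMap s.f₁ hs₁ T₁ h₁) (divMap_bijective s.f₁ hs₁ T₁ h₁ hT₁)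
    e₀₁ := LinearEquiv.ofBijective (divMap s.f₀₁ hs₀₁ T₀₁ h₀₁)
      (divMap_bijective s.f₀₁ hs₀₁ T₀₁ h₀₁ hT₀₁)
    comm₀ := fun n => divMap_comm E.r₀ G.r₀ s.f₀ hs₀ s.f₀₁ hs₀₁ s.comm₀ T₀ T₀₁ hT.map₀.le
      hT.bc₀ h₀ h₀₁ n
    comm₁ := fun n => divMap_comm E.r₁ G.r₁ s.f₁ hs₁ s.f₀₁ hs₀₁ s.comm₁ T₁ T₀₁ hT.map₁.le
      hT.bc₁ h₁ h₀₁ n }⟩

end General

end

end Fermat.Agent.S25.H627
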