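import Mathlib
import Fermat.Agent.S25.Curve.Defs
import Fermat.Agent.S25.H627.CurveSchemeB

/-!
# S25 / CURVE leaf S1 (frozen statements of `Curve/Sections.lean`) — helper627

Proved here, with the frozen statements (names as in the skeleton, namespace
`Fermat.Agent.S25.H627`): S1a `finiteType_sections`, S1b `locally_isStandardSmooth_sections`,
S1c `isNoetherian_curve`, S1d `isDedekindDomain_sections`, S1e `not_isField_sections`,
S1g `infinite_closedPoints`.
-/

set_option autoImplicit false
set_option linter.style.haveILetI false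

universe u

open CategoryTheory AlgebraicGeometry TensorProduct

namespace Fermat.Agent.S25.H627

open Fermat.Agent.S25.Curve

variable {k : Type u} [Field k] {C : Scheme.{u}} (c : C ⟶ Spec (CommRingCat.of k))

/-- The inverse of `ΓSpecIso` as a ring equivalence `k ≃+* Γ(Spec k, ⊤)`. -/
noncomputable def gammaSpecEquiv (k : Type u) [Field k] :
    k ≃+* Γ(Spec (CommRingCat.of k), ⊤) :=
  (Scheme.ΓSpecIso (CommRingCat.of k)).symm.commRingCatIsoToRingEquiv

theorem sectionsRingHom_eq_comp_equiv (U : C.Opens) :
    sectionsRingHom c U = (c.appLE ⊤ U (by simp)).hom.comp (gammaSpecEquiv k).toRingHom := by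
  rw [sectionsRingHom_eq_appLE]
  rfl

/-- **S1a.** -/
theorem finiteType_sections [LocallyOfFiniteType c] {U : C.Opens} (hU : IsAffineOpen U) :
    @Algebra.FiniteType k Γ(C, U) _ _ (sectionsAlgebra c U) := by
  have h1 : (c.appLE ⊤ U (by simp)).hom.FiniteType :=
    LocallyOfFiniteType.finiteType_appLE c (isAffineOpen_top _) hU _
  have h2 : (gammaSpecEquiv k).toRingHom.FiniteType :=
    RingHom.FiniteType.of_surjective _ (gammaSpecEquiv k).surjective
  have h3 := h1.comp h2
  rw [← sectionsRingHom_eq_comp_equiv] at h3
  exact h3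

/-- **S1b.** -/
theorem locally_isStandardSmooth_sections [SmoothOfRelativeDimension 1 c] {U : C.Opens}
    (hU : IsAffineOpen U) :
    RingHom.Locally (RingHom.IsStandardSmoothOfRelativeDimension 1) (sectionsRingHom c U) := by
  have h1 : RingHom.Locally (RingHom.IsStandardSmoothOfRelativeDimension 1)
      (c.appLE ⊤ U (by simp)).hom :=
    HasRingHomProperty.appLE (P := @SmoothOfRelativeDimension 1) c inferInstance
      ⟨⊤, isAffineOpen_top _⟩ ⟨U, hU⟩ (by simp)
  rw [sectionsRingHom_eq_comp_equiv]
  exact (RingHom.locally_respectsIso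
    RingHom.isStandardSmoothOfRelativeDimension_respectsIso).2 _ (gammaSpecEquiv k) h1

variable [IsAlgClosed k] [IsProper c] [SmoothOfRelativeDimension 1 c] [IsIntegral C]

include c

/-- **S1c.** `C` is a noetherian scheme. -/
theorem isNoetherian_curve : IsNoetherian C := by
  haveI : CompactSpace C := QuasiCompact.compactSpace_of_compactSpace c
  haveI : IsLocallyNoetherian C := isLocallyNoetherian_curve k c
  exact { }

/-- **S1d = C1.** Sections over a nonempty affine open form a Dedekind domain. -/
theorem isDedekindDomain_sections {U : C.Opens} (hU : IsAffineOpen U) [hne : Nonempty U] :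
    IsDedekindDomain Γ(C, U) :=
  isDedekindDomain_of_isAffineOpen k c hU ⟨hne.some.1, hne.some.2⟩

/-- **S1e = C1.** ... which is not a field. -/
theorem not_isField_sections {U : C.Opens} (hU : IsAffineOpen U) [hne : Nonempty U] :
    ¬ IsField Γ(C, U) :=
  not_isField_of_isAffineOpen k c hU ⟨hne.some.1, hne.some.2⟩

end Fermat.Agent.S25.H627
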