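import Mathlib
import Fermat.Agent.S25.Curve.Defs
import Fermat.Agent.S25.H627.Sections

/-!
# S25 / CURVE leaf S2 (frozen statements of `Curve/Stalks.lean`) + S1g, S1h — helper627

S2a `isClosed_singleton_or_eq_genericPoint`, S2b `not_isClosed_singleton_genericPoint`,
S2c `isDiscreteValuationRing_stalk`, S2d `mem_range_or_exists_mem_maximalIdeal`,
S2e `finite_of_isClosed_of_ne_univ'` (the frozen S2e; primed because the unprimed name is my
earlier lemma without the closedness clause), S1g `infinite_closedPoints`,
S1h `injective_aeval_of_notMem_range`.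
-/

set_option autoImplicit false
set_option linter.style.haveILetI false
set_option linter.unusedSectionVars false

universe u

open CategoryTheory AlgebraicGeometry TensorProduct

namespace Fermat.Agent.S25.H627

open Fermat.Agent.S25.Curve

variable {k : Type u} [Field k] {C : Scheme.{u}} (c : C ⟶ Spec (CommRingCat.of k))
variable [IsAlgClosed k] [IsProper c] [SmoothOfRelativeDimension 1 c] [IsIntegral C]

/-- `primeIdealOf` inverts `fromSpec`. -/
theorem primeIdealOf_fromSpec' {X : Scheme.{u}} {U : X.Opens} (hU : IsAffineOpen U)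
    (y : PrimeSpectrum Γ(X, U)) (hy : hU.fromSpec y ∈ U) :
    hU.primeIdealOf ⟨hU.fromSpec y, hy⟩ = y := by
  haveI := hU.isOpenImmersion_fromSpec
  apply hU.fromSpec.isOpenEmbedding.injective
  exact hU.fromSpec_primeIdealOf ⟨hU.fromSpec y, hy⟩

include c

/-- **S2a.** Every point of `C` is closed or the generic point. -/
theorem isClosed_singleton_or_eq_genericPoint (P : C) :
    IsClosed ({P} : Set C) ∨ P = genericPoint C := by
  haveI : Smooth c := SmoothOfRelativeDimension.smooth 1 c
  obtain ⟨V, hV, hP, hD, -⟩ := exists_dedekind_chart k c P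
  haveI := hD
  haveI : Nonempty V := ⟨⟨P, hP⟩⟩
  by_cases h0 : (hV.primeIdealOf ⟨P, hP⟩).asIdeal = ⊥
  · right
    have hgen : genericPoint C ∈ V :=
      ((genericPoint_spec C).mem_open_set_iff V.isOpen).mpr ⟨P, trivial, hP⟩
    have h1 : hV.primeIdealOf ⟨genericPoint C, hgen⟩ = hV.primeIdealOf ⟨P, hP⟩ := by
      rw [hV.primeIdealOf_genericPoint, genericPoint_eq_bot_of_affine]
      exact PrimeSpectrum.ext h0.symm
    have h2 := congrArg hV.fromSpec h1
    rw [hV.fromSpec_primeIdealOf, hV.fromSpec_primeIdealOf] at h2
    exact h2.symm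
  · left
    have hmax : (hV.primeIdealOf ⟨P, hP⟩).asIdeal.IsMaximal :=
      Ring.DimensionLEOne.maximalOfPrime h0 (hV.primeIdealOf ⟨P, hP⟩).isPrime
    have := isClosed_singleton_fromSpec_of_isMaximal k c hV _ hmax
    rwa [hV.fromSpec_primeIdealOf] at this

/-- **S2b.** The generic point is not closed. -/
theorem not_isClosed_singleton_genericPoint : ¬ IsClosed ({genericPoint C} : Set C) := by
  intro hcl
  obtain ⟨V, hV, hP, hD, hF⟩ := exists_dedekind_chart k c (genericPoint C)
  haveI := hD
  haveI : Nonempty V := ⟨⟨_, hP⟩⟩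
  obtain ⟨p, hp0, hpp⟩ := Ring.not_isField_iff_exists_prime.mp hF
  let y : PrimeSpectrum Γ(C, V) := ⟨p, hpp⟩
  have hyV : hV.fromSpec y ∈ V := by
    rw [← SetLike.mem_coe, ← hV.range_fromSpec]
    exact Set.mem_range_self y
  have hspec : hV.fromSpec y ∈ closure ({genericPoint C} : Set C) := by
    rw [(genericPoint_spec C).def]
    trivial
  rw [hcl.closure_eq, Set.mem_singleton_iff] at hspec
  have h1 : hV.primeIdealOf ⟨genericPoint C, hP⟩ = y := by
    have := primeIdealOf_fromSpec' hV y hyV
    rw [← this]
    congr 1
    exact Subtype.ext hspec.symm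
  rw [hV.primeIdealOf_genericPoint, genericPoint_eq_bot_of_affine] at h1
  exact hp0 (congrArg PrimeSpectrum.asIdeal h1).symm

/-- **S2c.** Local rings at closed points are discrete valuation rings. -/
theorem isDiscreteValuationRing_stalk (P : C) (hP : IsClosed ({P} : Set C)) :
    IsDiscreteValuationRing (C.presheaf.stalk P) :=
  isDiscreteValuationRing_stalk_of_isClosed k c P hP

/-- **S2d.** Every local ring of `C` is a valuation ring of the function field: for
`f ∈ K(C)`, either `f ∈ O_P` or `f⁻¹ ∈ m_P`. -/
theorem mem_range_or_exists_mem_maximalIdeal (P : C) (f : C.functionField) :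
    f ∈ Set.range (algebraMap (C.presheaf.stalk P) C.functionField) ∨
      ∃ t ∈ IsLocalRing.maximalIdeal (C.presheaf.stalk P),
        algebraMap (C.presheaf.stalk P) C.functionField t * f = 1 := by
  haveI := valuationRing_stalk k c P
  by_cases hf : f ∈ Set.range (algebraMap (C.presheaf.stalk P) C.functionField)
  · exact Or.inl hf
  right
  have hf0 : f ≠ 0 := fun h => hf ⟨0, by rw [h, map_zero]⟩
  rcases ValuationRing.isInteger_or_isInteger (C.presheaf.stalk P) f with ⟨a, ha⟩ | ⟨t, ht⟩
  · exact absurd ⟨a, ha⟩ hf
  · refine ⟨t, ?_, ?_⟩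
    · rw [IsLocalRing.mem_maximalIdeal, mem_nonunits_iff]
      intro hu
      apply hf
      obtain ⟨u, rfl⟩ := hu
      refine ⟨((u⁻¹ : (C.presheaf.stalk P)ˣ) : C.presheaf.stalk P), ?_⟩
      have h1 : algebraMap (C.presheaf.stalk P) C.functionField (u : C.presheaf.stalk P) *
          algebraMap (C.presheaf.stalk P) C.functionField
            ((u⁻¹ : (C.presheaf.stalk P)ˣ) : C.presheaf.stalk P) = 1 := by
        rw [← map_mul, Units.mul_inv, map_one]
      rw [ht] at h1
      have h2 : f⁻¹ * f = 1 := inv_mul_cancel₀ hf0
      exact (mul_left_cancel₀ (inv_ne_zero hf0) (h1.trans h2.symm))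
    · rw [ht]
      exact inv_mul_cancel₀ hf0

/-- **S2e.** A proper closed subset of `C` is a finite set of closed points. -/
theorem finite_of_isClosed_of_ne_univ' {Z : Set C} (hZ : IsClosed Z) (hne : Z ≠ Set.univ) :
    Z.Finite ∧ ∀ P ∈ Z, IsClosed ({P} : Set C) := by
  haveI : CompactSpace C := QuasiCompact.compactSpace_of_compactSpace c
  refine ⟨finite_of_isClosed_of_ne_univ k c Z hZ hne, fun P hP => ?_⟩
  rcases isClosed_singleton_or_eq_genericPoint c P with h | h
  · exact h
  · exfalso
    apply hne
    rw [Set.eq_univ_iff_forall]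
    intro x
    have : x ∈ closure ({genericPoint C} : Set C) := by
      rw [(genericPoint_spec C).def]
      trivial
    exact closure_minimal (Set.singleton_subset_iff.mpr (h ▸ hP)) hZ this

/-- **S1g = C3.** `C` has infinitely many closed points. -/
theorem infinite_closedPoints : (closedPoints C).Infinite := by
  haveI : Smooth c := SmoothOfRelativeDimension.smooth 1 c
  haveI : JacobsonSpace C := LocallyOfFiniteType.jacobsonSpace c
  intro hfin
  have hcl : IsClosed (closedPoints C) := by
    have : closedPoints C = ⋃ x ∈ closedPoints C, ({x} : Set C) := by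
      ext x
      simp
    rw [this]
    exact hfin.isClosed_biUnion fun x hx => hx
  have huniv : closedPoints C = Set.univ := by
    rw [← hcl.closure_eq]
    exact closure_closedPoints
  apply not_isClosed_singleton_genericPoint c
  have : genericPoint C ∈ closedPoints C := huniv ▸ Set.mem_univ _
  exact this

/-- **S1h.** A section over a nonempty open which is not a constant is transcendental over
`k`. -/
theorem injective_aeval_of_notMem_range {U : C.Opens} [Nonempty U] (s : Γ(C, U))
    (hs : s ∉ Set.range (sectionsRingHom c U)) :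
    letI := sectionsAlgebra c U
    Function.Injective (Polynomial.aeval (R := k) s) := by
  letI := sectionsAlgebra c U
  rw [← transcendental_iff_injective]
  intro halg
  apply hs
  have hint : IsIntegral k s := IsAlgebraic.isIntegral halg
  haveI : Algebra.IsIntegral k (Algebra.adjoin k ({s} : Set Γ(C, U))) :=
    Algebra.IsIntegral.adjoin (fun x hx => by
      rw [Set.mem_singleton_iff] at hx
      rw [hx]
      exact hint)
  have hbij : Function.Bijective (algebraMap k (Algebra.adjoin k ({s} : Set Γ(C, U)))) :=
    IsAlgClosed.algebraMap_bijective_of_isIntegral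
  obtain ⟨a, ha⟩ := hbij.2 ⟨s, Algebra.subset_adjoin (Set.mem_singleton s)⟩
  refine ⟨a, ?_⟩
  have h1 := congrArg (Subtype.val) ha
  have h2 : algebraMap k Γ(C, U) a = s := by simpa using h1
  exact h2

end Fermat.Agent.S25.H627
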